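import Mathlib
import Fermat.Agent.S16.MF.Exp
import Fermat.Agent.S16.VP.Iface

/-!
# S16 / UBa / Defs (owner helper18): shared objects for (U-a) and (U-b)

`p` prime, `f ∈ M₂(Γ₀(p))` with integer `q`-coefficients `a`, `E ∈ M_k(SL₂(ℤ))` (`k = 2 r`) with
integer `q`-coefficients `e`.

* `formF p E f r hk = E(p z) - f(z)^r ∈ M_k(Γ₀(p))`;
* `serI p hp r a e = E(x^p) - A(x)^r ∈ ℤ⟦x⟧` : the `q`-expansion of `formF`;
* `serT p r a e = E(x) - (-p)^r (U A)(x)^r ∈ ℤ⟦x⟧`, `(U A)(x) = Σ a_{pn} x^n` : the expansion of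
  `p^k (formF ∣ S)` in `x = e^{2πiz/p}`.
-/

set_option autoImplicit false

open UpperHalfPlane ModularForm CongruenceSubgroup
open scoped MatrixGroups ModularForm

namespace Fermat.Agent.S16.UBa

open Fermat.Agent.S23 (Gam)

/-- `E(x^p) - A(x)^r`. -/
noncomputable def serI (p : ℕ) (hp : p ≠ 0) (r : ℕ) (a e : ℕ → ℤ) : PowerSeries ℤ :=
  PowerSeries.expand p hp (PowerSeries.mk e) - (PowerSeries.mk a) ^ r

/-- `E(x) - (-p)^r (U A)(x)^r` with `(U A)(x) = Σ a_{pn} x^n`. -/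
noncomputable def serT (p r : ℕ) (a e : ℕ → ℤ) : PowerSeries ℤ :=
  PowerSeries.mk e - PowerSeries.C ((-(p : ℤ)) ^ r) * (PowerSeries.mk fun n => a (p * n)) ^ r

/-- The form `E(p z) - f(z)^r` of weight `k = 2 r` and level `Γ₀(p)`. -/
noncomputable def formF (p : ℕ) {k : ℤ} (E : ModularForm 𝒮ℒ k) (f : ModularForm (Gam p) 2) (r : ℕ)
    (hk : (r : ℤ) * 2 = k) : ModularForm (Gam p) k :=
  raiseOne p E - ModularForm.mcast hk (f.pow r)

end Fermat.Agent.S16.UBa
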