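import Mathlib
import Fermat.Agent.S16.UBa.Defs
import Fermat.Agent.S16.UBb.ArithA

/-!
# S16 / UBa / ArithA (statement FROZEN by helper18; proof owner: helper1's team)

Pure arithmetic of integer power series for (U-a): if `a ≡ (1, 0, 0, …) mod ℓ`, `e 0 = 1` and
`ℓ ∤ e 1` then, modulo `ℓ`, `serI = E(x^p) - A^r ≡ E(x^p) - 1` and
`serT = E - (-p)^r (U A)^r ≡ E - (-p)^r`.

Hint: map to `(ZMod ℓ)⟦X⟧` (`PowerSeries.map (Int.castRingHom (ZMod ℓ))`), where `mk a ↦ 1`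
(and `mk (fun n => a (p * n)) ↦ 1`, as `p * n ≥ 1` for `n ≥ 1`); `PowerSeries.coeff_expand`,
`ZMod.intCast_zmod_eq_zero_iff_dvd` / `ZMod.intCast_cast`.
-/

set_option autoImplicit false

namespace Fermat.Agent.S16.UBa

theorem arith_a {ℓ p r : ℕ} (hp : p ≠ 0) {a e : ℕ → ℤ}
    (ha0 : (ℓ : ℤ) ∣ a 0 - 1) (ha : ∀ n, 1 ≤ n → (ℓ : ℤ) ∣ a n)
    (he0 : e 0 = 1) (he1 : ¬ (ℓ : ℤ) ∣ e 1) :
    (∀ n < p, (ℓ : ℤ) ∣ PowerSeries.coeff n (serI p hp r a e)) ∧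
    ¬ (ℓ : ℤ) ∣ PowerSeries.coeff p (serI p hp r a e) ∧
    ¬ (ℓ : ℤ) ∣ PowerSeries.coeff 1 (serT p r a e) :=
  Fermat.Agent.S16.UBb.arith_a hp (ℓ : ℤ) r ((-(p : ℤ)) ^ r) a e ha0 ha he0 he1

end Fermat.Agent.S16.UBa
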