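import Mathlib
import Fermat.Agent.S16.UBa.Defs
import Fermat.Agent.S16.UBb.ArithB

/-!
# S16 / UBa / ArithB (statement FROZEN by helper18; proof owner: helper1's team)

Pure arithmetic of integer power series for (U-b): `a ≡ (1, 0, 0, …) mod 9`, `e 0 = 1`,
`e 1 = 240`, `3 ∣ e n` for `n ≥ 1`, `3 ∤ p`, `r = 2`.  Then `serI = E(x^p) - A²` and
`serT = E - p² (U A)²` are divisible by `3`, and the quotients `I'`, `T'` satisfy:
the coefficients of `I'` of index `< p` are `≡ 0 mod 3`, the `p`-th one is `≡ 80 ≢ 0`, and the first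
coefficient of `T'` is `≡ 80 ≢ 0 mod 3`.

(Modulo `9`: `A ≡ 1`, `U A ≡ 1`, so `serI ≡ E(x^p) - 1` and `serT ≡ E - p²`;
`1 - p² ≡ 0 mod 3`, `240 = 9 * 26 + 6`.)
-/

set_option autoImplicit false

namespace Fermat.Agent.S16.UBa

theorem arith_b {p : ℕ} (hp : p ≠ 0) (hp3 : ¬ 3 ∣ p) {a e : ℕ → ℤ}
    (ha0 : (9 : ℤ) ∣ a 0 - 1) (ha : ∀ n, 1 ≤ n → (9 : ℤ) ∣ a n)
    (he0 : e 0 = 1) (he1 : e 1 = 240) (he : ∀ n, 1 ≤ n → (3 : ℤ) ∣ e n) :
    ∃ I' T' : PowerSeries ℤ,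
      serI p hp 2 a e = PowerSeries.C (3 : ℤ) * I' ∧
      serT p 2 a e = PowerSeries.C (3 : ℤ) * T' ∧
      (∀ n < p, (3 : ℤ) ∣ PowerSeries.coeff n I') ∧
      ¬ (3 : ℤ) ∣ PowerSeries.coeff p I' ∧
      ¬ (3 : ℤ) ∣ PowerSeries.coeff 1 T' := by
  obtain ⟨B, hB⟩ := Fermat.Agent.S16.UBb.exists_eq_one_add 3 e (by rw [he0]; simp) he
  have hB0 : B.coeff 0 = 0 := by
    have h := congrArg (PowerSeries.coeff 0) hB
    rw [PowerSeries.coeff_mk, map_add, map_zsmul, smul_eq_mul, PowerSeries.coeff_one, if_pos rfl,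
      he0] at h
    omega
  have hB1 : B.coeff 1 = 80 := by
    have h := congrArg (PowerSeries.coeff 1) hB
    rw [PowerSeries.coeff_mk, map_add, map_zsmul, smul_eq_mul, PowerSeries.coeff_one,
      if_neg one_ne_zero, he1] at h
    omega
  obtain ⟨I', T', hI, hT, h1, h2, h3⟩ := Fermat.Agent.S16.UBb.arith_b_gen hp hp3 a B hB0
    (by rw [hB1]; norm_num) ha0 ha
  refine ⟨I', T', ?_, ?_, h1, h2, h3⟩
  · rw [serI, hB, hI, zsmul_eq_mul]
    simp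
  · rw [serT, hB, neg_sq, ← PowerSeries.smul_eq_C_mul, ← PowerSeries.smul_eq_C_mul]
    exact hT

end Fermat.Agent.S16.UBa
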