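import Mathlib
import Fermat.Agent.S16.MF.Exp
import Fermat.Agent.S16.COS.Iface
import Fermat.Agent.S16.RED.Basic
import Fermat.Agent.S16.NS.Final
import Fermat.Agent.S16.NS.Index

/-!
# S16 / UBa / NSApp (owner helper18): the norm–Sturm principle at level `Γ₀(p)`, integer form

`nsapp_int`: let `F ∈ M_k(Γ₀(p))`, `4 ∣ (p + 1) k`, `(p + 1) k < 12 p`, `ℓ` a prime.  Suppose
* `c₁ F = Σ I'_n q^n` with `I' ∈ ℤ⟦q⟧`, `ℓ ∣ I'_n` for `n < p`, and `I' ≢ 0 mod ℓ`;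
* `c₂ (F ∣ S) = Σ T'_n x^n` (`x = e^{2πiz/p}`) with `T' ∈ ℤ⟦x⟧`, `T' ≢ 0 mod ℓ`.
Then `False`.

Proof: `norm_sturm_exp` with `V = Vl ℓ`, `h = M = p`, `psi p = p + 1`.  Identity coset:
`c₁ F = Σ I'_n x^{p n}`.  Other cosets: `F ∣ γ = F ∣ S T^j` (`COS.slash_eq_of_not_dvd`),
`(G ∣ S T^j)(z) = (G ∣ S)(z + j)` (`slash_S_T_apply`), so `c₂ (F ∣ γ) = Σ ω^n T'_n x^n` with
`ω = e^{2πi j/p}` a root of unity (`HasExp.comp_add`).
-/

set_option autoImplicit false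

open UpperHalfPlane ModularForm CongruenceSubgroup
open scoped MatrixGroups ModularForm Real

namespace Fermat.Agent.S16.UBa

open Fermat.Agent.S23 (Gam psi)

/-- `(G ∣ S T^j)(z) = (G ∣ S)(z + j)`. -/
theorem slash_S_T_apply (k : ℤ) (G : ℍ → ℂ) (j : ℕ) (z w : ℍ)
    (hw : (w : ℂ) = (z : ℂ) + ((j : ℤ) : ℂ)) :
    (G ∣[k] (ModularGroup.S * ModularGroup.T ^ j)) z = (G ∣[k] ModularGroup.S) w := by
  rw [SlashAction.slash_mul, SL_slash_apply]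
  have h1 : (ModularGroup.T ^ j) • z = w := by
    apply UpperHalfPlane.ext
    rw [hw, ← zpow_natCast, ModularGroup.coe_T_zpow_smul_eq]
  have h2 : denom ((ModularGroup.T ^ j : SL(2, ℤ)) : GL (Fin 2) ℝ) z = 1 := by
    have h3 : (ModularGroup.T ^ j : SL(2, ℤ)) = ModularGroup.T ^ (j : ℤ) := (zpow_natCast _ _).symm
    rw [h3]
    have hT := ModularGroup.coe_T_zpow (j : ℤ)
    simp only [denom]
    have h10 : (((ModularGroup.T ^ (j : ℤ) : SL(2, ℤ)) : GL (Fin 2) ℝ) 1 0 : ℝ) =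
        (((ModularGroup.T ^ (j : ℤ) : SL(2, ℤ)) 1 0 : ℤ) : ℝ) := rfl
    have h11 : (((ModularGroup.T ^ (j : ℤ) : SL(2, ℤ)) : GL (Fin 2) ℝ) 1 1 : ℝ) =
        (((ModularGroup.T ^ (j : ℤ) : SL(2, ℤ)) 1 1 : ℤ) : ℝ) := rfl
    rw [h10, h11]
    have e10 : (ModularGroup.T ^ (j : ℤ) : SL(2, ℤ)) 1 0 = 0 := by
      show (ModularGroup.T ^ (j : ℤ) : SL(2, ℤ)).1 1 0 = 0
      rw [hT]; rfl
    have e11 : (ModularGroup.T ^ (j : ℤ) : SL(2, ℤ)) 1 1 = 1 := by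
      show (ModularGroup.T ^ (j : ℤ) : SL(2, ℤ)).1 1 1 = 1
      rw [hT]; rfl
    rw [e10, e11]
    simp
  rw [h1, h2]
  simp

namespace NSAppAux

open Fermat.Agent.S16

/-- Reduction of an element of `Vl ℓ` which is an integer. -/
theorem red_mk_int (ℓ : ℕ) [Fact ℓ.Prime] (a : ℤ) (x : ℂ) (hx : x ∈ Vl ℓ) (hxa : x = (a : ℂ)) :
    red ℓ ⟨x, hx⟩ = 0 ↔ (ℓ : ℤ) ∣ a := by
  subst hxa
  have h1 : (⟨(a : ℂ), hx⟩ : Vl ℓ) = ((a : ℤ) : Vl ℓ) := Subtype.ext (by simp)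
  rw [h1, red_intCast_eq_zero_iff]

/-- Coefficients of the expansion at `∞` in the variable `e^{2πiz/p}`. -/
theorem coeff_expand_map (p : ℕ) (hp : p ≠ 0) (I' : PowerSeries ℤ) (m : ℕ) :
    PowerSeries.coeff m (PowerSeries.expand p hp (PowerSeries.map (Int.castRingHom ℂ) I')) =
      (((if p ∣ m then PowerSeries.coeff (m / p) I' else 0 : ℤ)) : ℂ) := by
  rw [PowerSeries.coeff_expand]
  split_ifs with h
  · rw [PowerSeries.coeff_map]
    rfl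
  · simp

/-- The root of unity `e^{2πij/p}`. -/
theorem exp_pow_eq_one (p : ℕ) (hp : p ≠ 0) (j : ℤ) :
    Complex.exp (2 * (Real.pi : ℂ) * Complex.I * (j : ℂ) / (p : ℂ)) ^ p = 1 := by
  have hp' : (p : ℂ) ≠ 0 := Nat.cast_ne_zero.mpr hp
  rw [← Complex.exp_nat_mul]
  have e : (p : ℂ) * (2 * (Real.pi : ℂ) * Complex.I * (j : ℂ) / (p : ℂ)) =
      (j : ℂ) * (2 * (Real.pi : ℂ) * Complex.I) := by
    field_simp
  rw [e]
  exact Complex.exp_int_mul_two_pi_mul_I j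

/-- Coefficients of a rescaled integral series lie in `Vl ℓ`. -/
theorem coeff_rescale_mem (ℓ : ℕ) (ω : ℂ) (hω : ω ∈ Vl ℓ) (T' : PowerSeries ℤ) (m : ℕ) :
    PowerSeries.coeff m (PowerSeries.rescale ω (PowerSeries.map (Int.castRingHom ℂ) T')) ∈
      Vl ℓ := by
  rw [PowerSeries.coeff_rescale, PowerSeries.coeff_map]
  exact (Vl ℓ).mul_mem ((Vl ℓ).pow_mem hω m) (intCast_mem (Vl ℓ) _)

/-- Nonvanishing of the reduction of a rescaled coefficient. -/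
theorem red_coeff_rescale_ne_zero (ℓ : ℕ) [Fact ℓ.Prime] (p : ℕ) (hp : p ≠ 0) (ω : ℂ)
    (hωp : ω ^ p = 1) (hω : ω ∈ Vl ℓ) (T' : PowerSeries ℤ) (n : ℕ)
    (hn : ¬ (ℓ : ℤ) ∣ PowerSeries.coeff n T')
    (hV : PowerSeries.coeff n (PowerSeries.rescale ω (PowerSeries.map (Int.castRingHom ℂ) T')) ∈
      Vl ℓ) :
    red ℓ ⟨PowerSeries.coeff n
      (PowerSeries.rescale ω (PowerSeries.map (Int.castRingHom ℂ) T')), hV⟩ ≠ 0 := by
  have h1 : (⟨PowerSeries.coeff n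
      (PowerSeries.rescale ω (PowerSeries.map (Int.castRingHom ℂ) T')), hV⟩ : Vl ℓ) =
      (⟨ω, hω⟩ : Vl ℓ) ^ n * ((PowerSeries.coeff n T' : ℤ) : Vl ℓ) := by
    apply Subtype.ext
    show PowerSeries.coeff n (PowerSeries.rescale ω (PowerSeries.map (Int.castRingHom ℂ) T')) =
      (((⟨ω, hω⟩ : Vl ℓ) ^ n * ((PowerSeries.coeff n T' : ℤ) : Vl ℓ) : Vl ℓ) : ℂ)
    rw [PowerSeries.coeff_rescale, PowerSeries.coeff_map]
    simp
  have hunit : IsUnit (⟨ω, hω⟩ : Vl ℓ) := by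
    apply IsUnit.of_pow_eq_one (n := p) _ hp
    apply Subtype.ext
    simpa using hωp
  rw [h1, map_mul, map_pow]
  refine mul_ne_zero (pow_ne_zero _ (red_ne_zero_of_isUnit ℓ hunit)) ?_
  intro h0
  exact hn ((red_intCast_eq_zero_iff ℓ _).mp h0)

end NSAppAux

/-- The norm–Sturm principle at level `Γ₀(p)` for integral expansions (see the file header). -/
theorem nsapp_int {p : ℕ} (hp : p.Prime) {ℓ : ℕ} (hℓ : ℓ.Prime) {k : ℤ}
    (F : ModularForm (Gam p) k)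
    (hK : (4 : ℤ) ∣ ((p : ℤ) + 1) * k) (hM : ((p : ℤ) + 1) * k < 12 * (p : ℤ))
    (c₁ c₂ : ℂ) (hc₁ : c₁ ≠ 0) (hc₂ : c₂ ≠ 0) (I' T' : PowerSeries ℤ)
    (hI : HasExp 1 (c₁ • (F : ℍ → ℂ)) (PowerSeries.map (Int.castRingHom ℂ) I'))
    (hI0 : ∀ n < p, (ℓ : ℤ) ∣ PowerSeries.coeff n I')
    (hI1 : ∃ n, ¬ (ℓ : ℤ) ∣ PowerSeries.coeff n I')
    (hT : HasExp p (c₂ • ((F : ℍ → ℂ) ∣[k] ModularGroup.S))
      (PowerSeries.map (Int.castRingHom ℂ) T'))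
    (hT1 : ∃ n, ¬ (ℓ : ℤ) ∣ PowerSeries.coeff n T') : False := by
  have : NeZero p := ⟨hp.ne_zero⟩
  have : Fact ℓ.Prime := ⟨hℓ⟩
  have hpsi : ((psi p : ℕ) : ℤ) = (p : ℤ) + 1 := by
    rw [psi_prime hp]
    push_cast
    rfl
  refine norm_sturm_exp F (Vl ℓ) (red ℓ) p hp.pos p (by rw [hpsi]; exact hK)
    (by rw [hpsi]; exact hM) ?_ ?_
  · -- the expansion at `∞`
    have hB : HasExp p (c₁ • (F : ℍ → ℂ))
        (PowerSeries.expand p hp.ne_zero (PowerSeries.map (Int.castRingHom ℂ) I')) := by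
      have h1 := hI.expand_h p hp.ne_zero
      rwa [one_mul] at h1
    have hV : ∀ m, PowerSeries.coeff m
        (PowerSeries.expand p hp.ne_zero (PowerSeries.map (Int.castRingHom ℂ) I')) ∈ Vl ℓ := by
      intro m
      rw [NSAppAux.coeff_expand_map]
      exact intCast_mem (Vl ℓ) _
    refine ⟨c₁, _, hc₁, hB, hV, ?_, ?_⟩
    · obtain ⟨n, hn⟩ := hI1
      refine ⟨p * n, ?_⟩
      rw [Ne, NSAppAux.red_mk_int ℓ _ _ (hV (p * n))
          (NSAppAux.coeff_expand_map p hp.ne_zero I' (p * n)),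
        if_pos (Dvd.intro n rfl), Nat.mul_div_cancel_left n hp.pos]
      exact hn
    · intro m hm
      rw [NSAppAux.red_mk_int ℓ _ _ (hV m) (NSAppAux.coeff_expand_map p hp.ne_zero I' m)]
      split_ifs with hdvd
      · apply hI0
        exact Nat.div_lt_of_lt_mul hm
      · exact dvd_zero _
  · -- the expansions at the other cosets
    intro γ hγ
    have hnd : ¬ (p : ℤ) ∣ γ 1 0 := by
      intro hd
      apply hγ
      rw [CongruenceSubgroup.Gamma0_mem]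
      exact (ZMod.intCast_zmod_eq_zero_iff_dvd _ _).mpr hd
    obtain ⟨j, -, hj⟩ := COS.slash_eq_of_not_dvd hp F γ hnd
    have hB := hT.comp_add (G' := c₂ • ((F : ℍ → ℂ) ∣[k] γ)) (j : ℤ) (by
      intro z w hw
      rw [Pi.smul_apply, Pi.smul_apply, hj, slash_S_T_apply k _ j z w hw])
    have hωp := NSAppAux.exp_pow_eq_one p hp.ne_zero (j : ℤ)
    have hω := rootOfUnity_mem_Vl ℓ hp.pos hωp
    obtain ⟨n, hn⟩ := hT1
    exact ⟨c₂, _, hc₂, hB, fun m => NSAppAux.coeff_rescale_mem ℓ _ hω T' m, n,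
      NSAppAux.red_coeff_rescale_ne_zero ℓ p hp.ne_zero _ hωp hω T' n hn _⟩

end Fermat.Agent.S16.UBa
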