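import Mathlib
import Fermat.Agent.S16.MF.Exp
import Fermat.Agent.S16.VP.Iface
import Fermat.Agent.S16.B1.Iface
import Fermat.Agent.S16.UBa.Defs

/-!
# S16 / UBa / Trans (owner helper18): the expansions of `F = E(p z) - f^r` and of `p^k (F ∣ S)`

* `hasExp_formF`   : `F = Σ (serI)_n q^n`  (`qExpansion_raiseOne`, `hasExp_gam`, `HasExp.pow`);
* `hasExp_formF_S` : `p^k (F ∣ S)(z) = Σ (serT)_n x^n`, `x = e^{2πiz/p}`:
  `(E(p ·) ∣ S)(z) = p^{-k} E(z / p)` (`vp_slash_of_not_dvd` at `γ = S`, where `j = 0`),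
  `(f ∣ S)(z) = -(1/p) Σ a_{pn} x^n` (`B1.hasExp_S`), `(f^r) ∣[2r] S = (f ∣[2] S)^r`.
-/

set_option autoImplicit false

open UpperHalfPlane ModularForm CongruenceSubgroup
open scoped MatrixGroups ModularForm Real

namespace Fermat.Agent.S16.UBa

open Fermat.Agent.S23 (Gam)

theorem qExp_eq_map {G : ℍ → ℂ} {a : ℕ → ℤ} (ha : ∀ n, (qExpansion 1 G).coeff n = (a n : ℂ)) :
    qExpansion 1 G = PowerSeries.map (Int.castRingHom ℂ) (PowerSeries.mk a) := by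
  ext n
  rw [ha n, PowerSeries.coeff_map, PowerSeries.coeff_mk]
  rfl

theorem coe_formF (p : ℕ) {k : ℤ} (E : ModularForm 𝒮ℒ k) (f : ModularForm (Gam p) 2) (r : ℕ)
    (hk : (r : ℤ) * 2 = k) :
    (formF p E f r hk : ℍ → ℂ) = (raiseOne p E : ℍ → ℂ) - (f : ℍ → ℂ) ^ r := by
  ext z
  simp [formF]

/-- `(g^r) ∣[r * k] γ = (g ∣[k] γ)^r` for `γ ∈ SL(2, ℤ)`. -/
theorem pow_slash_SL (k : ℤ) (g : ℍ → ℂ) (r : ℕ) (γ : SL(2, ℤ)) :
    (g ^ r) ∣[(r : ℤ) * k] γ = (g ∣[k] γ) ^ r := by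
  ext τ
  simp only [ModularForm.SL_slash_apply, Pi.pow_apply, mul_pow]
  congr 1
  rw [← zpow_natCast, ← zpow_mul]
  congr 1
  ring

theorem sub_slash_SL (k : ℤ) (g h : ℍ → ℂ) (γ : SL(2, ℤ)) :
    (g - h) ∣[k] γ = g ∣[k] γ - h ∣[k] γ := by
  rw [sub_eq_add_neg, SlashAction.add_slash, SlashAction.neg_slash, ← sub_eq_add_neg]

/-- `(E(p ·) ∣ S)(z) = p^{-k} E(z / p)`. -/
theorem raiseOne_slash_S {p : ℕ} (hp : p.Prime) {k : ℤ} (E : ModularForm 𝒮ℒ k) (z w : ℍ)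
    (hw : (w : ℂ) = (z : ℂ) / (p : ℂ)) :
    ((raiseOne p E : ℍ → ℂ) ∣[k] ModularGroup.S) z = (p : ℂ) ^ (-k) * E w := by
  have hS10 : ModularGroup.S 1 0 = 1 := by simp [ModularGroup.S]
  have hS11 : ModularGroup.S 1 1 = 0 := by simp [ModularGroup.S]
  have hnd : ¬ (p : ℤ) ∣ ModularGroup.S 1 0 := by
    rw [hS10]
    intro h
    have := Int.le_of_dvd one_pos h
    have := hp.two_le
    omega
  obtain ⟨γ', j, hj, hdvd, -, h2⟩ :=
    vp_slash_of_not_dvd hp k (raiseOne_apply hp.ne_zero E) ModularGroup.S hnd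
  have hj0 : j = 0 := by
    rw [hS10, hS11, zero_sub, one_mul, dvd_neg] at hdvd
    have : p ∣ j := by exact_mod_cast hdvd
    exact Nat.eq_zero_of_dvd_of_lt this hj
  subst hj0
  have hEγ : (E : ℍ → ℂ) ∣[k] γ' = E := by
    rw [ModularForm.SL_slash]
    exact SlashInvariantFormClass.slash_action_eq E _ (MonoidHom.mem_range.mpr ⟨γ', rfl⟩)
  rw [h2 z w (by rw [hw]; simp), hEγ]

theorem scal_id {p : ℂ} (hp0 : p ≠ 0) (r : ℕ) :
    p ^ ((r : ℤ) * 2) * (-(1 / p)) ^ r = (-p) ^ r := by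
  have h1 : p ^ ((r : ℤ) * 2) = (p ^ r) ^ 2 := by
    rw [zpow_mul, zpow_natCast]
    norm_cast
  have h2 : (-(1 / p)) ^ r = (-1) ^ r * (p ^ r)⁻¹ := by
    rw [neg_pow, one_div, inv_pow]
  have h3 : p ^ r ≠ 0 := pow_ne_zero r hp0
  rw [h1, h2, neg_pow p]
  field_simp

/-- The expansion of `p^k ((E(p ·) - f^r) ∣ S)` in `x = e^{2πiz/p}`. -/
theorem hasExp_formF_S {p : ℕ} (hp : p.Prime) {k : ℤ} (E : ModularForm 𝒮ℒ k)
    (f : ModularForm (Gam p) 2) (r : ℕ) (hk : (r : ℤ) * 2 = k) {a e : ℕ → ℤ}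
    (ha : ∀ n, (qExpansion 1 f).coeff n = (a n : ℂ))
    (he : ∀ n, (qExpansion 1 E).coeff n = (e n : ℂ)) :
    HasExp p (((p : ℂ) ^ k) • ((formF p E f r hk : ℍ → ℂ) ∣[k] ModularGroup.S))
      (PowerSeries.map (Int.castRingHom ℂ) (serT p r a e)) := by
  have hp0 : (p : ℂ) ≠ 0 := Nat.cast_ne_zero.mpr hp.ne_zero
  -- the Eisenstein part
  have hR : HasExp p (((p : ℂ) ^ k) • ((raiseOne p E : ℍ → ℂ) ∣[k] ModularGroup.S))
      (qExpansion 1 E) := by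
    have h := (hasExp_levelOne E).comp_div p hp.ne_zero
      (G' := ((p : ℂ) ^ k) • ((raiseOne p E : ℍ → ℂ) ∣[k] ModularGroup.S)) (by
        intro z w hw
        rw [Pi.smul_apply, raiseOne_slash_S hp E z w hw, smul_eq_mul, ← mul_assoc,
          ← zpow_add₀ hp0, add_neg_cancel, zpow_zero, one_mul])
    rwa [one_mul] at h
  -- the `f` part
  have hB := ((B1.hasExp_S hp f).pow r).smul ((p : ℂ) ^ k)
  have hsl : (formF p E f r hk : ℍ → ℂ) ∣[k] ModularGroup.S =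
      (raiseOne p E : ℍ → ℂ) ∣[k] ModularGroup.S - ((f : ℍ → ℂ) ∣[(2 : ℤ)] ModularGroup.S) ^ r := by
    rw [coe_formF, sub_slash_SL]
    congr 1
    subst hk
    exact pow_slash_SL 2 f r ModularGroup.S
  have hU : (PowerSeries.mk fun n => -(1 / (p : ℂ)) * (qExpansion 1 f).coeff (p * n)) =
      (-(1 / (p : ℂ))) • PowerSeries.map (Int.castRingHom ℂ) (PowerSeries.mk fun n => a (p * n)) := by
    ext n
    rw [PowerSeries.coeff_mk, PowerSeries.coeff_smul, PowerSeries.coeff_map, PowerSeries.coeff_mk,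
      ha (p * n)]
    rfl
  have hser : PowerSeries.map (Int.castRingHom ℂ) (serT p r a e) = qExpansion 1 E -
      ((p : ℂ) ^ k) • (PowerSeries.mk fun n => -(1 / (p : ℂ)) * (qExpansion 1 f).coeff (p * n)) ^ r := by
    have hsc : (p : ℂ) ^ k * (-(1 / (p : ℂ))) ^ r = (-(p : ℂ)) ^ r := by
      rw [← hk]
      exact scal_id hp0 r
    rw [hU, smul_pow, smul_smul, hsc, serT, map_sub, map_mul, PowerSeries.map_C,
      map_pow (PowerSeries.map (Int.castRingHom ℂ)), qExp_eq_map he, PowerSeries.smul_eq_C_mul]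
    simp
  rw [hsl, smul_sub, hser]
  exact hR.sub hB

/-- The `q`-expansion of `E(p z) - f(z)^r`. -/
theorem hasExp_formF {p : ℕ} (hp : p.Prime) {k : ℤ} (E : ModularForm 𝒮ℒ k)
    (f : ModularForm (Gam p) 2) (r : ℕ) (hk : (r : ℤ) * 2 = k) {a e : ℕ → ℤ}
    (ha : ∀ n, (qExpansion 1 f).coeff n = (a n : ℂ))
    (he : ∀ n, (qExpansion 1 E).coeff n = (e n : ℂ)) :
    HasExp 1 (formF p E f r hk : ℍ → ℂ)
      (PowerSeries.map (Int.castRingHom ℂ) (serI p hp.ne_zero r a e)) := by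
  have : NeZero p := ⟨hp.ne_zero⟩
  have h1 : HasExp 1 (raiseOne p E : ℍ → ℂ)
      (PowerSeries.expand p hp.ne_zero (qExpansion 1 E)) := by
    have := hasExp_gam (raiseOne p E)
    rwa [qExpansion_raiseOne hp.ne_zero] at this
  have h2 : HasExp 1 ((f : ℍ → ℂ) ^ r) ((qExpansion 1 f) ^ r) := (hasExp_gam f).pow r
  have hser : PowerSeries.map (Int.castRingHom ℂ) (serI p hp.ne_zero r a e) =
      PowerSeries.expand p hp.ne_zero (qExpansion 1 E) - (qExpansion 1 f) ^ r := by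
    rw [serI, map_sub, map_pow, PowerSeries.map_expand, qExp_eq_map he, qExp_eq_map ha]
  rw [coe_formF, hser]
  exact h1.sub h2

end Fermat.Agent.S16.UBa
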