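import Mathlib
import Fermat.Agent.S16.UB.Defs
import Fermat.Agent.S16.LV1.Iface
import Fermat.Agent.S16.UBa.Defs
import Fermat.Agent.S16.UBa.ArithA
import Fermat.Agent.S16.UBa.ArithB
import Fermat.Agent.S16.UBa.NSApp
import Fermat.Agent.S16.UBa.Trans

/-!
# S16 / UBa / Main (owner helper18): (U-a) and (U-b)

* `Ua_core`: generic (U-a) for a level-one form `E` of weight `k = 2 r` with integer
  `q`-coefficients `e`, `e 0 = 1`, `ℓ ∤ e 1`;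
* `Ua`: `ℓ = 5` with `E₆` (`e 1 = -504`), `ℓ ≥ 7` with `E₄` (`e 1 = 240`);
* `Ub`: `ℓ = 3`, `f ≡ 1 mod 9`, `E₄`, scalars `c₁ = 1/3`, `c₂ = p⁴/3`.
-/

set_option autoImplicit false

open UpperHalfPlane ModularForm CongruenceSubgroup
open scoped MatrixGroups ModularForm Real

namespace Fermat.Agent.S16.UBa

open Fermat.Agent.S23 (Gam)
open Fermat.Agent.S16.UB (CongOne)

/-- Generic (U-a). -/
theorem Ua_core {p : ℕ} (hp : p.Prime) {ℓ : ℕ} (hℓ : ℓ.Prime) {k : ℤ} (E : ModularForm 𝒮ℒ k)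
    (r : ℕ) (hk : (r : ℤ) * 2 = k) (hK : (4 : ℤ) ∣ ((p : ℤ) + 1) * k)
    (hM : ((p : ℤ) + 1) * k < 12 * (p : ℤ)) {e : ℕ → ℤ}
    (he : ∀ n, (qExpansion 1 E).coeff n = (e n : ℂ)) (he0 : e 0 = 1) (he1 : ¬ (ℓ : ℤ) ∣ e 1)
    (f : ModularForm (Gamma0 p) 2) (hf : CongOne f ℓ) : False := by
  obtain ⟨a, ha, ha0, ha1⟩ := hf
  obtain ⟨h1, h2, h3⟩ := arith_a (r := r) hp.ne_zero ha0 ha1 he0 he1
  have hpk : ((p : ℂ) ^ k) ≠ 0 := zpow_ne_zero _ (Nat.cast_ne_zero.mpr hp.ne_zero)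
  refine nsapp_int hp hℓ (formF p E f r hk) hK hM 1 ((p : ℂ) ^ k) one_ne_zero hpk
    (serI p hp.ne_zero r a e) (serT p r a e) ?_ h1 ⟨p, h2⟩ (hasExp_formF_S hp E f r hk ha he)
    ⟨1, h3⟩
  rw [one_smul]
  exact hasExp_formF hp E f r hk ha he

/-- The integer `q`-coefficients of `E₄`. -/
def e4 (n : ℕ) : ℤ := if n = 0 then 1 else 240 * (ArithmeticFunction.sigma 3 n : ℤ)

/-- The integer `q`-coefficients of `E₆`. -/
def e6 (n : ℕ) : ℤ := if n = 0 then 1 else -504 * (ArithmeticFunction.sigma 5 n : ℤ)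

theorem e4_spec (n : ℕ) : (qExpansion 1 E₄).coeff n = (e4 n : ℂ) := by
  rw [LV1.E4_coeff, e4]
  split_ifs <;> push_cast <;> rfl

theorem e6_spec (n : ℕ) : (qExpansion 1 E₆).coeff n = (e6 n : ℂ) := by
  rw [LV1.E6_coeff, e6]
  split_ifs <;> push_cast <;> rfl

theorem e4_one : e4 1 = 240 := by simp [e4]

theorem e6_one : e6 1 = -504 := by simp [e6]

/-- (U-a): for a prime `ℓ ≥ 5` there is no `f ≡ 1 mod ℓ` in `M₂(Γ₀(p))`. -/
theorem Ua {p : ℕ} (hp : p.Prime) (hp5 : 5 ≤ p) {ℓ : ℕ} (hℓ : ℓ.Prime) (hℓ5 : 5 ≤ ℓ)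
    (f : ModularForm (Gamma0 p) 2) (hf : CongOne f ℓ) : False := by
  have hp5' : (5 : ℤ) ≤ (p : ℤ) := by exact_mod_cast hp5
  obtain ⟨m, hm⟩ := hp.odd_of_ne_two (by omega)
  have hpm : (p : ℤ) = 2 * (m : ℤ) + 1 := by exact_mod_cast hm
  by_cases h5 : ℓ = 5
  · subst h5
    refine Ua_core hp hℓ (k := 6) E₆ 3 (by norm_num) ?_ ?_ e6_spec (by simp [e6]) ?_ f hf
    · exact ⟨3 * ((m : ℤ) + 1), by rw [hpm]; ring⟩
    · linarith
    · rw [e6_one]; decide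
  · refine Ua_core hp hℓ (k := 4) E₄ 2 (by norm_num) ?_ ?_ e4_spec (by simp [e4]) ?_ f hf
    · exact ⟨(p : ℤ) + 1, by ring⟩
    · linarith
    · rw [e4_one]
      intro hdvd
      have h240 : ℓ ∣ 240 := by exact_mod_cast hdvd
      have h1 : ℓ ∣ 2 ^ 4 * (3 * 5) := by simpa using h240
      rcases (Nat.Prime.dvd_mul hℓ).mp h1 with h | h
      · have := Nat.le_of_dvd (by norm_num) (hℓ.dvd_of_dvd_pow h)
        omega
      · rcases (Nat.Prime.dvd_mul hℓ).mp h with h | h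
        · have := Nat.le_of_dvd (by norm_num) h
          omega
        · have := Nat.le_of_dvd (by norm_num) h
          omega

/-- (U-b): there is no `f ≡ 1 mod 9` in `M₂(Γ₀(p))` (`p ≥ 5`). -/
theorem Ub {p : ℕ} (hp : p.Prime) (hp5 : 5 ≤ p) (f : ModularForm (Gamma0 p) 2)
    (hf : CongOne f 9) : False := by
  have hp5' : (5 : ℤ) ≤ (p : ℤ) := by exact_mod_cast hp5
  obtain ⟨a, ha, ha0, ha1⟩ := hf
  have hp3 : ¬ 3 ∣ p := by
    intro h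
    have := (Nat.prime_dvd_prime_iff_eq Nat.prime_three hp).mp h
    omega
  have he3 : ∀ n, 1 ≤ n → (3 : ℤ) ∣ e4 n := by
    intro n hn
    rw [e4, if_neg (by omega)]
    exact Dvd.dvd.mul_right (by norm_num) _
  obtain ⟨I', T', hI, hT, h1, h2, h3⟩ :=
    arith_b hp.ne_zero hp3 ha0 ha1 (by simp [e4]) e4_one he3
  have hk : ((2 : ℕ) : ℤ) * 2 = 4 := by norm_num
  have hF := (hasExp_formF hp E₄ f 2 hk ha e4_spec).smul (1 / 3 : ℂ)
  have hS := (hasExp_formF_S hp E₄ f 2 hk ha e4_spec).smul (1 / 3 : ℂ)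
  have hpk : ((p : ℂ) ^ (4 : ℤ)) ≠ 0 := zpow_ne_zero _ (Nat.cast_ne_zero.mpr hp.ne_zero)
  have key : ∀ J : PowerSeries ℤ, (1 / 3 : ℂ) • PowerSeries.map (Int.castRingHom ℂ)
      (PowerSeries.C (3 : ℤ) * J) = PowerSeries.map (Int.castRingHom ℂ) J := by
    intro J
    ext n
    rw [PowerSeries.coeff_smul, PowerSeries.coeff_map, PowerSeries.coeff_map,
      PowerSeries.coeff_C_mul]
    simp
  rw [hI, key] at hF
  rw [hT, key, smul_smul] at hS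
  refine nsapp_int hp Nat.prime_three (formF p E₄ f 2 hk) ⟨(p : ℤ) + 1, by ring⟩ (by linarith)
    (1 / 3) (1 / 3 * (p : ℂ) ^ (4 : ℤ)) (by norm_num) (mul_ne_zero (by norm_num) hpk)
    I' T' hF h1 ⟨p, h2⟩ hS ⟨1, h3⟩

end Fermat.Agent.S16.UBa
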